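/-
S55 / F-abs / LA-A : the diagram chase `Ψ` (pure linear algebra, Mathlib only).
-/
import Mathlib

set_option autoImplicit false

namespace Fermat.Agent.S55.F

open Module LinearMap

/-- `dim (B / A) + dim A = dim B` for `A ≤ B`, with `B / A` realised inside `E ⧸ A`. -/
theorem LA.chaseA_finrank_map_mkQ {k E : Type*} [Field k] [AddCommGroup E] [Module k E]
    (A B : Submodule k E) (hAB : A ≤ B) [Module.Finite k B] :
    finrank k (B.map A.mkQ) + finrank k A = finrank k B := by
  have h := LinearMap.finrank_range_add_finrank_ker (A.mkQ.domRestrict B)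
  rw [LinearMap.range_domRestrict, LinearMap.ker_domRestrict, Submodule.ker_mkQ,
    (Submodule.comapSubtypeEquivOfLe hAB).finrank_eq] at h
  exact h

/-- `dim f(p) + dim ker f = dim p` for `ker f ≤ p`. -/
theorem LA.chaseA_finrank_map {k E E' : Type*} [Field k] [AddCommGroup E] [Module k E]
    [AddCommGroup E'] [Module k E'] (f : E →ₗ[k] E') (p : Submodule k E) (hp : ker f ≤ p)
    [Module.Finite k p] :
    finrank k (p.map f) + finrank k (ker f) = finrank k p := by
  have h := LinearMap.finrank_range_add_finrank_ker (f.domRestrict p)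
  rw [LinearMap.range_domRestrict, LinearMap.ker_domRestrict,
    (Submodule.comapSubtypeEquivOfLe hp).finrank_eq] at h
  exact h

/-- two linear maps with the same kernel have ranges of the same dimension. -/
theorem LA.chaseA_finrank_range_eq {k Q E₁ E₂ : Type*} [Field k] [AddCommGroup Q] [Module k Q]
    [AddCommGroup E₁] [Module k E₁] [AddCommGroup E₂] [Module k E₂]
    (f₁ : Q →ₗ[k] E₁) (f₂ : Q →ₗ[k] E₂) (h : ker f₁ = ker f₂) :
    finrank k (range f₁) = finrank k (range f₂) := by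
  rw [← f₁.quotKerEquivRange.finrank_eq, ← f₂.quotKerEquivRange.finrank_eq]
  exact (Submodule.quotEquivOfEq _ _ h).finrank_eq

/-- Rows `AR → AP → AM → 0` (exact, onto), `BR → BP → BM` (exact), vertical maps `l`.
`dim ker lM + dim (ker b₁ + im lR) = dim a₂(ker lP) + dim b₁⁻¹(im lP)`. -/
theorem LA.chaseA {k : Type} [Field k] {AR AP AM BR BP BM : Type}
    [AddCommGroup AR] [Module k AR] [AddCommGroup AP] [Module k AP] [AddCommGroup AM] [Module k AM]
    [AddCommGroup BR] [Module k BR] [AddCommGroup BP] [Module k BP] [AddCommGroup BM] [Module k BM]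
    [Module.Finite k AM] [Module.Finite k BR]
    (a₁ : AR →ₗ[k] AP) (a₂ : AP →ₗ[k] AM) (b₁ : BR →ₗ[k] BP) (b₂ : BP →ₗ[k] BM)
    (lR : AR →ₗ[k] BR) (lP : AP →ₗ[k] BP) (lM : AM →ₗ[k] BM)
    (c₁ : ∀ x, lP (a₁ x) = b₁ (lR x)) (c₂ : ∀ x, lM (a₂ x) = b₂ (lP x))
    (ha : Function.Exact a₁ a₂) (ha₂ : Function.Surjective a₂) (hb : Function.Exact b₁ b₂) :
    finrank k (ker lM) + finrank k (ker b₁ ⊔ range lR : Submodule k BR) =
      finrank k ((ker lP).map a₂) + finrank k ((range lP).comap b₁) := by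
  have hka : ker a₂ = range a₁ := LinearMap.exact_iff.mp ha
  have hkb : ker b₂ = range b₁ := LinearMap.exact_iff.mp hb
  set N : Submodule k AM := ker lM with hN
  set N₀ : Submodule k AM := (ker lP).map a₂ with hN₀
  set W : Submodule k BR := (range lP).comap b₁ with hW
  set V : Submodule k BR := ker b₁ ⊔ range lR with hV
  set I : Submodule k BP := W.map b₁ with hI
  set I₀ : Submodule k BP := (range a₁).map lP with hI₀
  set Q : Submodule k AP := N.comap a₂ with hQ
  -- the two descriptions of `Q`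
  have hQ' : Q = (range b₁).comap lP := by
    ext y
    rw [hQ, hN, Submodule.mem_comap, LinearMap.mem_ker, c₂, Submodule.mem_comap, ← hkb,
      LinearMap.mem_ker]
  have hIeq : I = range lP ⊓ range b₁ := by
    rw [hI, hW, Submodule.map_comap_eq, inf_comm]
  have hmapV : V.map b₁ = I₀ := by
    rw [hV, Submodule.map_sup, hI₀]
    have h1 : (ker b₁).map b₁ = ⊥ := by
      rw [eq_bot_iff, Submodule.map_le_iff_le_comap]
      intro z hz
      simpa using hz
    rw [h1, bot_sup_eq, ← LinearMap.range_comp, ← LinearMap.range_comp]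
    congr 1
    ext x
    exact (c₁ x).symm
  have hkW : ker b₁ ≤ W := by
    intro z hz
    rw [hW, Submodule.mem_comap, LinearMap.mem_ker.mp hz]
    exact zero_mem _
  have hkV : ker b₁ ≤ V := le_sup_left
  have hVW : V ≤ W := by
    refine sup_le hkW ?_
    rintro _ ⟨r, rfl⟩
    rw [hW, Submodule.mem_comap, ← c₁]
    exact ⟨_, rfl⟩
  have hI₀I : I₀ ≤ I := by
    rw [← hmapV, hI]
    exact Submodule.map_mono hVW
  have hN₀N : N₀ ≤ N := by
    rintro _ ⟨y, hy, rfl⟩
    rw [hN, LinearMap.mem_ker, c₂, LinearMap.mem_ker.mp hy, map_zero]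
  -- the two maps out of `Q`
  set f₁ : Q →ₗ[k] AM ⧸ N₀ := (N₀.mkQ ∘ₗ a₂).domRestrict Q with hf₁
  set f₂ : Q →ₗ[k] BP ⧸ I₀ := (I₀.mkQ ∘ₗ lP).domRestrict Q with hf₂
  have hr₁ : range f₁ = N.map N₀.mkQ := by
    rw [hf₁, LinearMap.range_domRestrict, Submodule.map_comp, hQ,
      Submodule.map_comap_eq_of_surjective ha₂]
  have hr₂ : range f₂ = I.map I₀.mkQ := by
    rw [hf₂, LinearMap.range_domRestrict, Submodule.map_comp, hQ', Submodule.map_comap_eq, hIeq]
  have hker : ker f₁ = ker f₂ := by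
    rw [hf₁, hf₂, LinearMap.ker_domRestrict, LinearMap.ker_domRestrict, LinearMap.ker_comp,
      LinearMap.ker_comp, Submodule.ker_mkQ, Submodule.ker_mkQ, hN₀, hI₀, Submodule.comap_map_eq,
      Submodule.comap_map_eq, hka, sup_comm]
  have hX := LA.chaseA_finrank_range_eq f₁ f₂ hker
  rw [hr₁, hr₂] at hX
  have e1 := LA.chaseA_finrank_map_mkQ N₀ N hN₀N
  have e2 := LA.chaseA_finrank_map_mkQ I₀ I hI₀I
  have e3 := LA.chaseA_finrank_map b₁ W hkW
  have e4 := LA.chaseA_finrank_map b₁ V hkV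
  rw [hmapV] at e4
  rw [← hI] at e3
  omega

/-- `dim (im ∂ + L) ≤ dim L + dim Y - dim Y₀` if `∂ Y₀ ⊆ L`. -/
theorem LA.sup_le {k : Type} [Field k] {Y B : Type} [AddCommGroup Y] [Module k Y]
    [AddCommGroup B] [Module k B] [Module.Finite k Y] [Module.Finite k B]
    (d : Y →ₗ[k] B) (Y₀ : Submodule k Y) (L : Submodule k B) (h : ∀ y ∈ Y₀, d y ∈ L) :
    finrank k (range d ⊔ L : Submodule k B) + finrank k Y₀ ≤ finrank k L + finrank k Y := by
  have e1 := LA.chaseA_finrank_map_mkQ L (range d ⊔ L) le_sup_right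
  have e2 := LinearMap.finrank_range_add_finrank_ker (L.mkQ ∘ₗ d)
  have h1 : (range d ⊔ L).map L.mkQ = range (L.mkQ ∘ₗ d) := by
    rw [Submodule.map_sup, LinearMap.range_comp]
    have : L.map L.mkQ = ⊥ := by
      rw [eq_bot_iff, Submodule.map_le_iff_le_comap]
      intro z hz
      simpa using hz
    rw [this, sup_bot_eq]
  have h2 : Y₀ ≤ ker (L.mkQ ∘ₗ d) := by
    intro y hy
    rw [LinearMap.mem_ker, LinearMap.comp_apply, Submodule.mkQ_apply,
      Submodule.Quotient.mk_eq_zero]
    exact h y hy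
  have h3 := Submodule.finrank_mono h2
  rw [h1] at e1
  omega

end Fermat.Agent.S55.F
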