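/-
S55 / F-abs / LA-B : counting with perfect pairings (pure linear algebra, Mathlib only).
-/
import Mathlib

set_option autoImplicit false

namespace Fermat.Agent.S55.F

open Module LinearMap

/-- the subspace of `BR ≅ cR^∨` orthogonal to `A ≤ cR` has dimension the codimension of `A`. -/
theorem LA.DualCount.finrank_comap_ann {k : Type} [Field k] {cR BR : Type}
    [AddCommGroup cR] [Module k cR] [AddCommGroup BR] [Module k BR] [Module.Finite k cR]
    (lamR : BR →ₗ[k] Module.Dual k cR) (hlamR : Function.Bijective lamR) (A : Submodule k cR) :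
    finrank k (A.dualAnnihilator.comap lamR) + finrank k A = finrank k cR := by
  let e : BR ≃ₗ[k] Module.Dual k cR := LinearEquiv.ofBijective lamR hlamR
  have h1 : A.dualAnnihilator.comap lamR = A.dualAnnihilator.map (e.symm : _ →ₗ[k] BR) := by
    rw [← Submodule.comap_equiv_eq_map_symm]
    rfl
  rw [h1, LinearEquiv.finrank_map_eq, add_comm]
  exact Subspace.finrank_add_finrank_dualAnnihilator_eq A

theorem LA.DualCount.finrank_map_of_injective {k : Type} [Field k] {V W : Type}
    [AddCommGroup V] [Module k V] [AddCommGroup W] [Module k W] (f : V →ₗ[k] W)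
    (hf : Function.Injective f) (p : Submodule k V) : finrank k (p.map f) = finrank k p :=
  ((Submodule.equivMapOfInjective f hf p).finrank_eq).symm

/-- `BR ≅ cR^∨`, `BP ≅ cP^∨`, `b₁` is the transpose of `ic`, `LR = (rR hR)^⊥`, `LP = (rP hP)^⊥`. -/
theorem LA.dualCount {k : Type} [Field k] {hR hP cR cP BR BP : Type}
    [AddCommGroup hR] [Module k hR] [AddCommGroup hP] [Module k hP] [AddCommGroup cR] [Module k cR]
    [AddCommGroup cP] [Module k cP] [AddCommGroup BR] [Module k BR] [AddCommGroup BP] [Module k BP]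
    [Module.Finite k hR] [Module.Finite k hP] [Module.Finite k cR] [Module.Finite k cP]
    (ih : hP →ₗ[k] hR) (ic : cP →ₗ[k] cR) (rR : hR →ₗ[k] cR) (rP : hP →ₗ[k] cP)
    (hcomm : ∀ x, ic (rP x) = rR (ih x)) (hinj : Function.Injective rR)
    (lamR : BR →ₗ[k] Module.Dual k cR) (lamP : BP →ₗ[k] Module.Dual k cP)
    (hlamR : Function.Bijective lamR) (hlamP : Function.Bijective lamP)
    (b₁ : BR →ₗ[k] BP) (hb : ∀ z φ, lamP (b₁ z) φ = lamR z (ic φ))
    (LR : Submodule k BR) (LP : Submodule k BP)
    (hLR : ∀ z, z ∈ LR ↔ ∀ x, lamR z (rR x) = 0) (hLP : ∀ z, z ∈ LP ↔ ∀ x, lamP z (rP x) = 0) :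
    finrank k (LP.comap b₁) + finrank k (range ih) = finrank k cR ∧
    finrank k (ker b₁ ⊔ LR : Submodule k BR) + finrank k ((range ic).comap rR) = finrank k cR ∧
    finrank k LR + finrank k hR = finrank k cR := by
  have hmem : ∀ (V : Type) [AddCommGroup V] [Module k V] (f : V →ₗ[k] cR) (z : BR),
      z ∈ (range f).dualAnnihilator.comap lamR ↔ ∀ x, lamR z (f x) = 0 := by
    intro V _ _ f z
    rw [Submodule.mem_comap, Submodule.mem_dualAnnihilator]
    constructor
    · intro h x
      exact h _ ⟨x, rfl⟩
    · rintro h _ ⟨x, rfl⟩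
      exact h x
  have eLR : LR = (range rR).dualAnnihilator.comap lamR := by
    ext z
    rw [hLR, hmem]
  have eLP : LP.comap b₁ = (range (rR ∘ₗ ih)).dualAnnihilator.comap lamR := by
    ext z
    rw [Submodule.mem_comap, hLP, hmem]
    refine forall_congr' fun x => ?_
    rw [hb, hcomm]
    rfl
  have eker : ker b₁ = (range ic).dualAnnihilator.comap lamR := by
    ext z
    rw [LinearMap.mem_ker, hmem]
    constructor
    · intro h φ
      rw [← hb, h, map_zero]
      rfl
    · intro h
      apply hlamP.1
      rw [map_zero]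
      ext φ
      rw [hb, h]
      rfl
  refine ⟨?_, ?_, ?_⟩
  · rw [eLP, ← LA.DualCount.finrank_comap_ann lamR hlamR (range (rR ∘ₗ ih)), LinearMap.range_comp,
      LA.DualCount.finrank_map_of_injective rR hinj]
  · have hsup : (ker b₁ ⊔ LR : Submodule k BR)
        = (range ic ⊓ range rR).dualAnnihilator.comap lamR := by
      let e : BR ≃ₗ[k] Module.Dual k cR := LinearEquiv.ofBijective lamR hlamR
      have hc : ∀ p : Submodule k (Module.Dual k cR),
          p.comap lamR = p.map (e.symm : _ →ₗ[k] BR) := by
        intro p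
        rw [← Submodule.comap_equiv_eq_map_symm]
        rfl
      rw [eker, eLR, hc, hc, hc, ← Submodule.map_sup, Subspace.dualAnnihilator_inf_eq]
    rw [hsup, ← LA.DualCount.finrank_comap_ann lamR hlamR (range ic ⊓ range rR)]
    congr 1
    rw [← LA.DualCount.finrank_map_of_injective rR hinj, Submodule.map_comap_eq, inf_comm]
  · rw [eLR, ← LA.DualCount.finrank_comap_ann lamR hlamR (range rR),
      LinearMap.finrank_range_of_inj hinj]

/-- two finite dimensional spaces of the same dimension carry a perfect pairing -/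
theorem LA.exists_perfect_pairing {k : Type} [Field k] {V W : Type} [AddCommGroup V] [Module k V]
    [AddCommGroup W] [Module k W] [Module.Finite k V] [Module.Finite k W]
    (h : finrank k V = finrank k W) :
    ∃ B : V →ₗ[k] W →ₗ[k] k, (∀ y, (∀ x, B y x = 0) → y = 0) ∧ (∀ x, (∀ y, B y x = 0) → x = 0) := by
  classical
  let e : V ≃ₗ[k] W := LinearEquiv.ofFinrankEq V W h
  let b := Module.finBasis k W
  refine ⟨b.toDual ∘ₗ (e : V →ₗ[k] W), ?_, ?_⟩
  · intro y hy
    have h1 : b.toDual (e y) = 0 := LinearMap.ext hy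
    have h2 : e y = 0 := b.toDual_injective (by rw [h1, map_zero])
    exact e.injective (by rw [h2, map_zero])
  · intro x hx
    apply b.repr.injective
    ext i
    have h1 := hx (e.symm (b i))
    simp only [LinearMap.comp_apply, LinearEquiv.coe_coe, LinearEquiv.apply_symm_apply,
      Basis.toDual_apply_right] at h1
    simpa using h1

end Fermat.Agent.S55.F
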